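import Fermat.Agent.G1.D.Vert.Chart
import Fermat.Agent.G1.D.HorizJ
import Fermat.Agent.GR.D.A7
import Fermat.Agent.GR.D.GlueMain

/-!
# GR-D, vertical package: finiteness statements and the adapter from self-duality of the Gauss ring
to the hypothesis `vert` of `GlueMain.dedekind_chart`.
-/

set_option autoImplicit false
set_option linter.unusedSectionVars false
set_option linter.unusedSectionVars false
set_option synthInstance.maxHeartbeats 400000

namespace Fermat.Agent.G1.D.Vert

open Fermat.Agent.G1 Fermat.Agent.GR Fermat.Agent.GR.D Fermat.Agent.GR.D.Vert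

variable [Inputs]

open ModularCurve Polynomial IntermediateField Fermat.Agent.S28 Fermat.Agent.GR

noncomputable section

section Generic

variable {R L F : Type*} [CommRing R] [IsDomain R] [IsDiscreteValuationRing R]
  [Field L] [CharZero L] [Algebra R L] [IsFractionRing R L]
  [Field F] [Algebra R F] [Algebra L F] [IsScalarTower R L F]

theorem fin_finite (t : F) (ht : Transcendental L t) [FiniteDimensional L⟮t⟯ F] :
    Module.Finite (Algebra.adjoin R ({t} : Set F))
      (integralClosure (Algebra.adjoin R ({t} : Set F)) F) := by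
  let _ : Algebra R[X] F := glueAlgF (R := R) t
  let _ : Algebra R[X] L⟮t⟯ := glueAlgK0 (R := R) (L := L) t
  have : IsScalarTower R R[X] F := IsScalarTower.of_algebraMap_eq fun r => by
    show algebraMap R F r = aeval t (C r)
    rw [aeval_C]
  have : IsScalarTower R[X] L⟮t⟯ F := IsScalarTower.of_algebraMap_eq fun _ => rfl
  have : IsFractionRing R[X] L⟮t⟯ := glue_isFractionRing_poly (R := R) t ht
  have : CharZero L⟮t⟯ := charZero_of_injective_algebraMap (algebraMap L L⟮t⟯).injective
  exact finite_integralClosure_adjoin L⟮t⟯ (show aeval t (X : R[X]) = t from aeval_X t)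

theorem fin_noeth (t : F) (ht : Transcendental L t) [FiniteDimensional L⟮t⟯ F] :
    IsNoetherianRing (E.chart R ({t} : Set F)) := by
  let _ : Algebra R[X] F := glueAlgF (R := R) t
  let _ : Algebra R[X] L⟮t⟯ := glueAlgK0 (R := R) (L := L) t
  have : IsScalarTower R R[X] F := IsScalarTower.of_algebraMap_eq fun r => by
    show algebraMap R F r = aeval t (C r)
    rw [aeval_C]
  have : IsScalarTower R[X] L⟮t⟯ F := IsScalarTower.of_algebraMap_eq fun _ => rfl
  have : IsFractionRing R[X] L⟮t⟯ := glue_isFractionRing_poly (R := R) t ht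
  have : CharZero L⟮t⟯ := charZero_of_injective_algebraMap (algebraMap L L⟮t⟯).injective
  exact isNoetherianRing_chart L⟮t⟯ (show aeval t (X : R[X]) = t from aeval_X t)

end Generic

variable {L : Type} [Field L] {R : ValuationSubring L} [IsDiscreteValuationRing R] {N : ℕ}
  {t : FF1 L N}

theorem IsParam.transcendental (ht : IsParam R N t) : Transcendental L t :=
  transcendental_of_mem_adjoin (transcendental_jF L N) ht.j_mem

theorem finiteDimensional [CharZero L] [NeZero N] (ht : IsParam R N t) :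
    FiniteDimensional L⟮t⟯ (FF1 L N) :=
  finiteDimensional_FF_of_transcendental L N ht.transcendental

set_option maxHeartbeats 2000000 in
theorem finite [CharZero L] [NeZero N] (ht : IsParam R N t) :
    Module.Finite (Algebra.adjoin R ({t} : Set (FF1 L N)))
      (integralClosure (Algebra.adjoin R ({t} : Set (FF1 L N))) (FF1 L N)) := by
  have := finiteDimensional ht
  exact fin_finite (L := L) t ht.transcendental

theorem noeth [CharZero L] [NeZero N] (ht : IsParam R N t) :
    IsNoetherianRing (E.chart R ({t} : Set (FF1 L N))) := by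
  have := finiteDimensional ht
  exact fin_noeth (L := L) t ht.transcendental

theorem aeval_inv_mem (ht : IsParam R N t) {ϖ : R} (hϖ : Irreducible ϖ) {s : R[X]}
    (hs : ¬ C ϖ ∣ s) : (aeval t s)⁻¹ ∈ gaussO R N :=
  ((gaussRing R N hϖ).unif _ (aeval_mem_gaussO ht s)).resolve_left (aeval_div_not_mem ht hϖ hs)

theorem aeval_ne_zero (ht : IsParam R N t) {ϖ : R} (hϖ : Irreducible ϖ) {s : R[X]}
    (hs : ¬ C ϖ ∣ s) : aeval t s ≠ 0 := by
  intro h
  apply aeval_div_not_mem ht hϖ hs
  rw [h, zero_div]
  exact zero_mem _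

/-- The hypothesis `vert` of `GlueMain.dedekind_chart` from the self-duality of the Gauss ring. -/
theorem vert_of_traceSelfDual (D : VData R L N) (ht : IsParam R N t) {ϖ : R} (hϖ : Irreducible ϖ)
    (hD : TraceSelfDual L⟮t⟯ (gaussO R N)) :
    ∀ x : FF1 L N, (∀ c ∈ E.chart R ({t} : Set (FF1 L N)), ∃ a s : R[X], ¬ (C ϖ : R[X]) ∣ s ∧
      aeval t s * algebraMap L⟮t⟯ (FF1 L N) (Algebra.trace L⟮t⟯ (FF1 L N) (x * c)) = aeval t a) →
      ∃ s : R[X], ¬ (C ϖ : R[X]) ∣ s ∧ aeval t s * x ∈ E.chart R ({t} : Set (FF1 L N)) := by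
  intro x hx
  apply frac' D ht hϖ x
  apply hD
  intro c hc
  obtain ⟨s0, hs0, hc0⟩ := frac' D ht hϖ c hc
  obtain ⟨a, s, hs, h⟩ := hx _ hc0
  let σ : L⟮t⟯ := ⟨aeval t s0, glue_aeval_mem_field (L := L) t s0⟩
  have h1 : x * (aeval t s0 * c) = σ • (x * c) := by
    rw [Algebra.smul_def]
    show x * (aeval t s0 * c) = aeval t s0 * (x * c)
    ring
  rw [h1, map_smul, smul_eq_mul, map_mul] at h
  have h2 : algebraMap L⟮t⟯ (FF1 L N) σ = aeval t s0 := rfl
  rw [h2] at h
  have h3 : algebraMap L⟮t⟯ (FF1 L N) (Algebra.trace L⟮t⟯ (FF1 L N) (x * c)) =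
      aeval t a * (aeval t s)⁻¹ * (aeval t s0)⁻¹ := by
    have e1 := aeval_ne_zero ht hϖ hs
    have e2 := aeval_ne_zero ht hϖ hs0
    field_simp
    rw [← h]
    ring
  rw [h3]
  exact mul_mem (mul_mem (aeval_mem_gaussO ht a) (aeval_inv_mem ht hϖ hs))
    (aeval_inv_mem ht hϖ hs0)

end

end Fermat.Agent.G1.D.Vert
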