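import Fermat.Agent.G1.D.Vert.GaussO
import Fermat.Agent.GR.D.Vert.Euler

/-!
# GR-D, vertical package: the charts `chart R {t}` of `FF1 L N`
-/

set_option autoImplicit false
set_option linter.unusedSectionVars false
set_option synthInstance.maxHeartbeats 400000

namespace Fermat.Agent.G1.D.Vert

open Fermat.Agent.G1 Fermat.Agent.GR.D Fermat.Agent.GR.D.Vert

open ModularCurve Polynomial Fermat.Agent.S28 Fermat.Agent.GR

noncomputable section

variable {L : Type*} [Field L] (R : ValuationSubring L) [IsDiscreteValuationRing R] (N : ℕ)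

local notation "𝕜" => IsLocalRing.ResidueField R

/-- the function `j` as an element of `FF1 L N`. -/
abbrev jFF : FF1 L N := ⟨jqModC L, (FF_le_FF1 L N (jqModC_mem_full L N))⟩

/-- An admissible parameter of the base line: Gauss-integral, with transcendental reduction, and
`j ∈ L(t)`. -/
structure IsParam (t : FF1 L N) : Prop where
  mem : t ∈ gaussO R N
  transc : Function.Injective (evP 𝕜 (gredFun R (t : LaurentSeries L)))
  j_mem : jFF N ∈ IntermediateField.adjoin L {t}

variable {R N}

theorem coe_mem_adjoin {t y : FF1 L N} (h : y ∈ IntermediateField.adjoin L {t}) :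
    (y : LaurentSeries L) ∈ IntermediateField.adjoin L {(t : LaurentSeries L)} := by
  have h1 : (FF1 L N).val y ∈ (IntermediateField.adjoin L {t}).map (FF1 L N).val :=
    (IntermediateField.mem_map _).mpr ⟨y, h, rfl⟩
  rw [IntermediateField.adjoin_map, Set.image_singleton] at h1
  exact h1

theorem IsParam.j_mem' {t : FF1 L N} (ht : IsParam R N t) :
    jqModC L ∈ IntermediateField.adjoin L {(t : LaurentSeries L)} :=
  coe_mem_adjoin ht.j_mem

variable (D : VData R L N) {t : FF1 L N} (ht : IsParam R N t) {ϖ : R} (hϖ : Irreducible ϖ)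

theorem hasRepr_coe (x : FF1 L N) : HasRepr D (x : LaurentSeries L) := D.span _ x.2

include D ht hϖ in
theorem frac' (x : FF1 L N) (hx : x ∈ gaussO R N) :
    ∃ s : R[X], ¬ C ϖ ∣ s ∧ aeval t s * x ∈ E.chart R ({t} : Set (FF1 L N)) := by
  obtain ⟨b, hb, hint⟩ := exists_isIntegralElem D ht.mem ht.transc ht.j_mem' hx (hasRepr_coe D x)
  refine ⟨b, (not_C_dvd_iff hϖ b).mpr hb, ?_⟩
  rw [mem_chart_iff, IntermediateField.coe_mul, coe_aeval]
  exact hint

theorem aeval_mem_chart (t : FF1 L N) (s : R[X]) : aeval t s ∈ E.chart R ({t} : Set (FF1 L N)) := by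
  rw [mem_chart_iff, coe_aeval]
  exact RingHom.isIntegralElem_map _

include ht in
theorem aeval_mem_gaussO (s : R[X]) : aeval t s ∈ gaussO R N := by
  rw [mem_gaussO, coe_aeval]
  exact isGInt_evP ht.mem s

include ht hϖ in
theorem aeval_div_not_mem {s : R[X]} (hs : ¬ C ϖ ∣ s) :
    aeval t s / algebraMap R (FF1 L N) ϖ ∉ gaussO R N := by
  rw [mem_gaussO, coe_div_algebraMap, coe_aeval, ← gredFun_eq_zero_iff hϖ (isGInt_evP ht.mem s),
    gredFun_evP ht.mem]
  exact (map_ne_zero_iff _ ht.transc).mpr ((not_C_dvd_iff hϖ s).mp hs)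

include D ht hϖ in
theorem frac (x : FF1 L N) (hx : x ∈ gaussO R N) :
    ∃ b ∈ E.chart R ({t} : Set (FF1 L N)), b / algebraMap R (FF1 L N) ϖ ∉ gaussO R N ∧
      x * b ∈ E.chart R ({t} : Set (FF1 L N)) := by
  obtain ⟨s, hs, h⟩ := frac' D ht hϖ x hx
  exact ⟨aeval t s, aeval_mem_chart t s, aeval_div_not_mem ht hϖ hs, by rwa [mul_comm]⟩

include ht in
theorem chart_le (x : FF1 L N) (hx : x ∈ E.chart R ({t} : Set (FF1 L N))) : x ∈ gaussO R N := by
  obtain ⟨p, hp, h⟩ := (isIntegral_adjoin_singleton_iff t x).mp (E.mem_chart.mp hx)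
  refine mem_of_monic_root (gaussO R N) (p.map (evP R t)) (hp.map _) ?_ x ?_
  · intro i
    rw [coeff_map]
    exact aeval_mem_gaussO ht _
  · rw [eval_map]
    exact h

include D ht hϖ in
theorem satChart : E.SatChart ϖ (gaussO R N) (E.chart R ({t} : Set (FF1 L N))) where
  le := chart_le ht
  sat x hx h := by
    rw [mem_chart_iff, coe_div_algebraMap]
    refine isIntegralElem_div D hϖ ht.mem ht.transc ht.j_mem' ((mem_chart_iff R N t x).mp hx) ?_ ?_
    · rw [← coe_div_algebraMap]
      exact h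
    · rw [← coe_div_algebraMap]
      exact hasRepr_coe D _
  closed := E.chart_closed _

/-- reduction of `q`-expansions on a chart. -/
def chartRed (ht : IsParam R N t) : E.chart R ({t} : Set (FF1 L N)) →+* LaurentSeries 𝕜 where
  toFun x := gredFun R ((x : FF1 L N) : LaurentSeries L)
  map_one' := gredFun_one
  map_zero' := gredFun_zero
  map_add' x y := gredFun_add (chart_le ht _ x.2) (chart_le ht _ y.2)
  map_mul' x y := gredFun_mul (chart_le ht _ x.2) (chart_le ht _ y.2)

include D hϖ in
theorem ker_chartRed :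
    RingHom.ker (chartRed ht) = Ideal.span {algebraMap R (E.chart R ({t} : Set (FF1 L N))) ϖ} := by
  have G := gaussRing R N hϖ
  apply le_antisymm
  · intro c hc
    have h0 : gredFun R ((c : FF1 L N) : LaurentSeries L) = 0 := hc
    rw [gredFun_eq_zero_iff hϖ (chart_le ht _ c.2), ← coe_div_algebraMap] at h0
    have h1 := (satChart D ht hϖ).sat _ c.2 h0
    rw [Ideal.mem_span_singleton]
    refine ⟨⟨_, h1⟩, Subtype.ext ?_⟩
    show (c : FF1 L N) = algebraMap R (FF1 L N) ϖ * ((c : FF1 L N) / algebraMap R (FF1 L N) ϖ)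
    rw [mul_div_cancel₀ _ G.ne_zero]
  · rw [Ideal.span_le, Set.singleton_subset_iff]
    show gredFun R ((algebraMap R (FF1 L N) ϖ : FF1 L N) : LaurentSeries L) = 0
    rw [coe_algebraMap_C, ← coeffMap_C, gredFun_emb, redL_C_eq_zero hϖ]

include D ht hϖ in
theorem isPrime_span :
    (Ideal.span {algebraMap R (E.chart R ({t} : Set (FF1 L N))) ϖ}).IsPrime := by
  rw [← ker_chartRed D ht hϖ]
  exact RingHom.ker_isPrime _

include D ht hϖ in
theorem isDomain_quot :
    IsDomain (E.chart R ({t} : Set (FF1 L N)) ⧸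
      Ideal.span {algebraMap R (E.chart R ({t} : Set (FF1 L N))) ϖ}) := by
  have := isPrime_span D ht hϖ
  exact Ideal.Quotient.isDomain _

end

end Fermat.Agent.G1.D.Vert
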