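import Fermat.Agent.GR.D.Vert.Data
import Fermat.Agent.G1.Defs

/-!
# G1-D, vertical package: the data `(V, W)` over a DVR `R` of residue characteristic `ℓ ∤ N`
(textual port of the structure `GR.D.Vert.VData`, `FF` replaced by `FF1`).
-/

set_option autoImplicit false
set_option linter.unusedSectionVars false

namespace Fermat.Agent.G1.D.Vert

open Fermat.Agent.G1 Fermat.Agent.GR.D Fermat.Agent.GR.D.Vert

open ModularCurve Polynomial Fermat.Agent.S28

noncomputable section

variable (R : Type*) [CommRing R] [IsDomain R] [IsDiscreteValuationRing R]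
variable (L : Type*) [Field L] [Algebra R L] [IsFractionRing R L]

/-- The vertical data: an integral series `V`, root of a monic `W ∈ R[j][Y]`, generating (at least)
the function field over `L(j)`, whose powers stay independent mod `ϖ` and which is a simple root of
`W` mod `ϖ`. -/
structure VData (N : ℕ) where
  V : LaurentSeries R
  W : R[X][X]
  n : ℕ
  hn : n = W.natDegree
  monic : W.Monic
  root : W.eval₂ (evP R (jqModC R)) V = 0
  span : ∀ y ∈ FF1 L N, ∃ (w : R[X]) (u : Fin n → R[X]), w ≠ 0 ∧
    evP R (jqModC L) w * y = ∑ i, evP R (jqModC L) (u i) * embL R L V ^ (i : ℕ)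
  indep : ∀ u : Fin n → (IsLocalRing.ResidueField R)[X],
    ∑ i, evP (IsLocalRing.ResidueField R) (jqModC (IsLocalRing.ResidueField R)) (u i) *
      redL R V ^ (i : ℕ) = 0 → u = 0
  simple : redL R ((derivative W).eval₂ (evP R (jqModC R)) V) ≠ 0

/-- alias of `VData` (the name used by G1-IG). -/
abbrev VData1 (N : ℕ) := VData R L N

end

end Fermat.Agent.G1.D.Vert
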