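import Fermat.Agent.G1.D.Vert.Unr

/-!
# GR-D, vertical package: finiteness of the integral closure of `R[t]`, abstract version
-/

set_option autoImplicit false
set_option linter.unusedSectionVars false
set_option linter.style.haveILetI false

namespace Fermat.Agent.G1.D.Vert

open Fermat.Agent.G1 Fermat.Agent.GR.D Fermat.Agent.GR.D.Vert

open ModularCurve Polynomial Fermat.Agent.S28

noncomputable section

variable {R : Type*} [CommRing R] [IsDomain R] [IsDiscreteValuationRing R]
variable {L : Type*} [Field L] [Algebra R L] [IsFractionRing R L] {N : ℕ}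

local notation "𝕜" => IsLocalRing.ResidueField R

/-- `R[X] → R[t]`. -/
def toAdjoin {F : Type*} [CommRing F] [Algebra R F] (t : F) :
    R[X] →+* Algebra.adjoin R ({t} : Set F) :=
  ((Polynomial.aeval t : R[X] →ₐ[R] F).codRestrict (Algebra.adjoin R {t})
    (fun _ => Polynomial.aeval_mem_adjoin_singleton R t)).toRingHom

theorem coe_toAdjoin {F : Type*} [CommRing F] [Algebra R F] (t : F) (p : R[X]) :
    ((toAdjoin t p : Algebra.adjoin R ({t} : Set F)) : F) = evP R t p := rfl

theorem toAdjoin_surjective {F : Type*} [CommRing F] [Algebra R F] (t : F) :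
    Function.Surjective (toAdjoin (R := R) t) := by
  rintro ⟨x, hx⟩
  have hx' := hx
  rw [Algebra.adjoin_singleton_eq_range_aeval] at hx'
  obtain ⟨p, hp⟩ := hx'
  exact ⟨p, Subtype.ext hp⟩

theorem finite_abstract (D : VData R L N) {F : Type*} [Field F] [Algebra R F] [CharZero F]
    (ι : F →+* LaurentSeries L)
    (hιR : ∀ r, ι (algebraMap R F r) = algebraMap R (LaurentSeries L) r)
    (hfrac : ∀ y : F, ι y ∈ fracQ R L) (hrep : ∀ y : F, HasRepr D (ι y))
    (t : F) (ht : IsGInt R (ι t)) (htr : Function.Injective (evP 𝕜 (gredFun R (ι t))))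
    (hjt : jqModC L ∈ IntermediateField.adjoin L {ι t}) :
    Module.Finite (Algebra.adjoin R ({t} : Set F))
        (integralClosure (Algebra.adjoin R ({t} : Set F)) F) ∧
      IsNoetherianRing (integralClosure (Algebra.adjoin R ({t} : Set F)) F) := by
  have hιev : ι.comp (evP R t) = evP R (ι t) := by
    have h := evP_comp (RingHom.id R) ι (fun a => hιR a) t
    rw [h, mapRingHom_id', RingHom.comp_id]
  have hιev' : ∀ p, ι (evP R t p) = evP R (ι t) p := fun p =>
    congrArg (fun f : R[X] →+* LaurentSeries L => f p) hιev
  have hinj : Function.Injective (evP R t) := by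
    intro p q hpq
    apply evP_injective_of_red ht htr
    rw [← hιev', ← hιev', hpq]
  let A := Algebra.adjoin R ({t} : Set F)
  have hbij : Function.Bijective (toAdjoin (R := R) t) :=
    ⟨fun p q hpq => hinj (congrArg Subtype.val hpq), toAdjoin_surjective t⟩
  let e : R[X] ≃+* A := RingEquiv.ofBijective _ hbij
  haveI : IsIntegrallyClosed A := IsIntegrallyClosed.of_equiv e
  haveI : IsNoetherianRing A := isNoetherianRing_of_ringEquiv R[X] e
  haveI : FaithfulSMul A F := (faithfulSMul_iff_algebraMap_injective A F).mpr Subtype.val_injective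
  let K := FractionRing A
  letI : Algebra K F := FractionRing.liftAlgebra A F
  haveI : IsScalarTower A K F := FractionRing.isScalarTower_liftAlgebra A F
  haveI : CharZero K := ((algebraMap K F).charZero_iff (algebraMap K F).injective).mpr inferInstance
  have hKA : ∀ x : A, algebraMap K F (algebraMap A K x) = (x : F) := fun x =>
    (IsScalarTower.algebraMap_apply A K F x).symm
  obtain ⟨a, b, hb, hab⟩ := exists_frac_of_mem_adjoin ht htr hjt isGInt_j
  have hb0 : evP R (ι t) b ≠ 0 := by
    intro h0
    have h1 : gredFun R (evP R (ι t) b) = 0 := by rw [h0, gredFun_zero]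
    rw [gredFun_evP ht] at h1
    exact hb (htr (h1.trans (map_zero _).symm))
  let κj : K := algebraMap A K (toAdjoin t a) / algebraMap A K (toAdjoin t b)
  have hκj : ι (algebraMap K F κj) = jqModC L := by
    rw [map_div₀, hKA, hKA, coe_toAdjoin, coe_toAdjoin, map_div₀, hιev', hιev', ← hab,
      mul_div_assoc, mul_comm, div_mul_cancel₀ _ hb0]
  let ρ : R →+* K := (algebraMap A K).comp (algebraMap R A)
  let θ : R[X] →+* K := Polynomial.eval₂RingHom ρ κj
  have hθ : (ι.comp (algebraMap K F)).comp θ = evP R (jqModC L) := by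
    refine Polynomial.ringHom_ext (fun r => ?_) ?_
    · show ι (algebraMap K F (θ (C r))) = evP R (jqModC L) (C r)
      have h1 : θ (C r) = algebraMap A K (algebraMap R A r) := by simp [θ, ρ]
      rw [h1, hKA]
      show ι (algebraMap R F r) = aeval (jqModC L) (C r)
      rw [hιR, aeval_C]
    · show ι (algebraMap K F (θ X)) = evP R (jqModC L) X
      have h1 : θ X = κj := by simp [θ]
      rw [h1, hκj]
      show _ = aeval (jqModC L) X
      rw [aeval_X]
  haveI : FiniteDimensional K F := (unr_abstract D ι θ hθ hfrac hrep).1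
  haveI : Algebra.IsAlgebraic K F := Algebra.IsAlgebraic.of_finite K F
  haveI : Algebra.IsSeparable K F := Algebra.IsAlgebraic.isSeparable_of_perfectField
  exact ⟨IsIntegralClosure.finite A K F (integralClosure A F),
    IsIntegralClosure.isNoetherianRing A K F (integralClosure A F)⟩

end

end Fermat.Agent.G1.D.Vert
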