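import Fermat.Agent.G1.D.Vert.Chart
import Fermat.Agent.G1.D.Vert.Finite

/-!
# GR-D, vertical package: final statements for `FF1 L N`
-/

set_option autoImplicit false
set_option linter.unusedSectionVars false
set_option linter.style.haveILetI false
set_option synthInstance.maxHeartbeats 400000

namespace Fermat.Agent.G1.D.Vert

open Fermat.Agent.G1 Fermat.Agent.GR.D Fermat.Agent.GR.D.Vert

open ModularCurve Polynomial Fermat.Agent.S28 Fermat.Agent.GR IntermediateField

noncomputable section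

variable {L : Type*} [Field L] [CharZero L] {R : ValuationSubring L} [IsDiscreteValuationRing R]
  {N : ℕ}

local notation "𝕜" => IsLocalRing.ResidueField R

theorem coe_mem_fracQ (y : FF1 L N) : (y : LaurentSeries L) ∈ fracQ R L := by
  rcases isGInt_or_inv_FF R N y with h | h
  · exact IsGInt.mem_fracQ h
  · have h1 := inv_mem (IsGInt.mem_fracQ h)
    rwa [IntermediateField.coe_inv, inv_inv] at h1

variable (D : VData R L N) {t : FF1 L N} (ht : IsParam R N t) {ϖ : R} (hϖ : Irreducible ϖ)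

set_option maxHeartbeats 1000000 in
include D ht in
theorem unr_main : FiniteDimensional L⟮t⟯ (FF1 L N) ∧ ∀ x : FF1 L N,
    (∀ c ∈ gaussO R N, ((Algebra.trace L⟮t⟯ (FF1 L N) (x * c) : L⟮t⟯) : FF1 L N) ∈ gaussO R N) →
      x ∈ gaussO R N := by
  haveI : CharZero L⟮t⟯ := charZero_of_injective_algebraMap (algebraMap L L⟮t⟯).injective
  obtain ⟨θ, hθ⟩ : ∃ θ : R[X] →+* L⟮t⟯,
      ((valF N).comp (algebraMap L⟮t⟯ (FF1 L N))).comp θ = evP R (jqModC L) := by
    refine ⟨evP R (⟨jFF N, ht.j_mem⟩ : L⟮t⟯), ?_⟩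
    have hΨ : ∀ a : R, ((valF N).comp (algebraMap L⟮t⟯ (FF1 L N))) (algebraMap R L⟮t⟯ a)
        = algebraMap R (LaurentSeries L) (RingHom.id R a) := by
      intro a
      have h1 : algebraMap L⟮t⟯ (FF1 L N) (algebraMap R L⟮t⟯ a) = algebraMap R (FF1 L N) a := rfl
      rw [RingHom.comp_apply, h1]
      exact coe_algebraMap R N a
    rw [evP_comp (RingHom.id R) ((valF N).comp (algebraMap L⟮t⟯ (FF1 L N))) hΨ, mapRingHom_id',
      RingHom.comp_id]
    rfl
  obtain ⟨h1, h2⟩ := @unr_abstract R _ _ _ L _ _ _ N D (FF1 L N) L⟮t⟯ _ _ _ _ (valF N) θ hθ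
    (fun y => coe_mem_fracQ y) (fun y => hasRepr_coe D y)
  exact ⟨h1, fun x hx => h2 x fun c hc => hx c hc⟩

include D ht in
theorem main_finiteDimensional : FiniteDimensional L⟮t⟯ (FF1 L N) := (unr_main D ht).1

include ht hϖ in
theorem inv_aeval_mem_gaussO {s : R[X]} (hs : ¬ C ϖ ∣ s) : (aeval t s)⁻¹ ∈ gaussO R N := by
  rw [mem_gaussO, IntermediateField.coe_inv, coe_aeval]
  refine (isGInt_evP ht.mem s).inv ?_
  rw [gredFun_evP ht.mem]
  exact (map_ne_zero_iff _ ht.transc).mpr ((not_C_dvd_iff hϖ s).mp hs)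

include ht hϖ in
theorem main_aeval_ne_zero {s : R[X]} (hs : ¬ C ϖ ∣ s) : aeval t s ≠ 0 := by
  intro h0
  apply aeval_div_not_mem ht hϖ hs
  rw [h0, zero_div]
  exact (gaussO R N).zero_mem

theorem aeval_mem_adjoin (t : FF1 L N) (s : R[X]) : aeval t s ∈ L⟮t⟯ := by
  have h : (aeval t s : FF1 L N) = aeval t (s.map (algebraMap R L)) := by
    rw [aeval_map_algebraMap]
  rw [h]
  exact IntermediateField.algebra_adjoin_le_adjoin L {t}
    (Polynomial.aeval_mem_adjoin_singleton L t)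

include D ht hϖ in
/-- (UNR) at the vertical prime, in the shape used by the glue. -/
theorem vert (x : FF1 L N)
    (hx : ∀ c ∈ E.chart R ({t} : Set (FF1 L N)), ∃ a s : R[X], ¬ C ϖ ∣ s ∧
      aeval t s * ((Algebra.trace L⟮t⟯ (FF1 L N) (x * c) : L⟮t⟯) : FF1 L N) = aeval t a) :
    ∃ s : R[X], ¬ C ϖ ∣ s ∧ aeval t s * x ∈ E.chart R ({t} : Set (FF1 L N)) := by
  refine frac' D ht hϖ x ((unr_main D ht).2 x fun c hc => ?_)
  obtain ⟨s0, hs0, hc0⟩ := frac' D ht hϖ c hc
  obtain ⟨a, s, hs, h⟩ := hx _ hc0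
  have h1 : x * (aeval t s0 * c) = (⟨aeval t s0, aeval_mem_adjoin t s0⟩ : L⟮t⟯) • (x * c) := by
    rw [Algebra.smul_def]
    show _ = aeval t s0 * (x * c)
    ring
  rw [h1, map_smul, smul_eq_mul, IntermediateField.coe_mul] at h
  have hne := main_aeval_ne_zero ht hϖ hs
  have hne0 := main_aeval_ne_zero ht hϖ hs0
  have h2 : ((Algebra.trace L⟮t⟯ (FF1 L N) (x * c) : L⟮t⟯) : FF1 L N)
      = aeval t a * ((aeval t s)⁻¹ * (aeval t s0)⁻¹) := by
    rw [← h]
    show _ = aeval t s * (aeval t s0 * _) * _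
    field_simp
  rw [h2]
  exact mul_mem (aeval_mem_gaussO ht a)
    (mul_mem (inv_aeval_mem_gaussO ht hϖ hs) (inv_aeval_mem_gaussO ht hϖ hs0))

set_option maxHeartbeats 1000000 in
include D ht in
theorem finite_and_noeth :
    Module.Finite (Algebra.adjoin R ({t} : Set (FF1 L N)))
        (integralClosure (Algebra.adjoin R ({t} : Set (FF1 L N))) (FF1 L N)) ∧
      IsNoetherianRing (integralClosure (Algebra.adjoin R ({t} : Set (FF1 L N))) (FF1 L N)) := by
  haveI : CharZero (FF1 L N) := charZero_of_injective_algebraMap (algebraMap L (FF1 L N)).injective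
  exact @finite_abstract R _ _ _ L _ _ _ N D (FF1 L N) _ _ _ (valF N)
    (fun r => coe_algebraMap R N r) (fun y => coe_mem_fracQ y) (fun y => hasRepr_coe D y) t
    ht.mem ht.transc ht.j_mem'

include D ht in
theorem main_finite : Module.Finite (Algebra.adjoin R ({t} : Set (FF1 L N)))
    (integralClosure (Algebra.adjoin R ({t} : Set (FF1 L N))) (FF1 L N)) :=
  (finite_and_noeth D ht).1

include D ht in
theorem main_noeth : IsNoetherianRing (E.chart R ({t} : Set (FF1 L N))) := by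
  haveI := (finite_and_noeth D ht).2
  let e : integralClosure (Algebra.adjoin R ({t} : Set (FF1 L N))) (FF1 L N) ≃+*
      E.chart R ({t} : Set (FF1 L N)) :=
    { toFun := fun x => ⟨x.1, x.2⟩
      invFun := fun x => ⟨x.1, x.2⟩
      left_inv := fun _ => rfl
      right_inv := fun _ => rfl
      map_mul' := fun _ _ => rfl
      map_add' := fun _ _ => rfl }
  exact isNoetherianRing_of_ringEquiv _ e

end

end Fermat.Agent.G1.D.Vert
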